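/-
S41 / (R1) abstract level-raising lemma, torsion form (volunteer leaf, helper59).  Mathlib only.

`Λ` a commutative ring, `ϖ : Λ` (think `Λ = ℤ`, `ℤ[1/6]` or `ℤ_(p)`, `ϖ = p`).
`L₂`, `M` are `Λ`-modules (`L₂ = L × L` old lattice squared, `M` the lattice of level `N q'`),
`α : L₂ → M`, `β : M → L₂` the two degeneracy maps, `S i`, `T i` the Hecke operators.
-/
import Mathlib

set_option autoImplicit false

namespace Fermat.Agent.S41.R1.CongruenceLemma

open Polynomial

section Intertwine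

variable {Λ : Type*} [CommRing Λ]
variable {A B : Type*} [AddCommGroup A] [Module Λ A] [AddCommGroup B] [Module Λ B]

/-- A linear map intertwining two endomorphisms intertwines all polynomials in them. -/
theorem aeval_intertwine (f : Module.End Λ A) (g : Module.End Λ B) (h : A →ₗ[Λ] B)
    (hfg : ∀ x, h (f x) = g (h x)) (P : Λ[X]) (x : A) :
    h (aeval f P x) = aeval g P (h x) := by
  induction P using Polynomial.induction_on' generalizing x with
  | add P Q hP hQ => simp [map_add, hP, hQ]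
  | monomial n c =>
    simp only [aeval_monomial, Module.algebraMap_end_apply, Module.End.mul_apply, map_smul]
    congr 1
    induction n generalizing x with
    | zero => simp
    | succ n ih =>
      rw [pow_succ, Module.End.mul_apply, ih, hfg, pow_succ (a := g), Module.End.mul_apply]

end Intertwine

section Core

variable {Λ : Type*} [CommRing Λ] (ϖ : Λ)
variable {L₂ M : Type*} [AddCommGroup L₂] [Module Λ L₂] [Module.Finite Λ L₂]
  [AddCommGroup M] [Module Λ M]

/-- membership in `ϖ • M` -/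
def Div (X : Type*) [AddCommGroup X] [Module Λ X] (x : X) : Prop := ∃ y : X, x = ϖ • y

variable {ϖ}

theorem Div.add {X : Type*} [AddCommGroup X] [Module Λ X] {x y : X} (hx : Div ϖ X x)
    (hy : Div ϖ X y) : Div ϖ X (x + y) := by
  obtain ⟨a, rfl⟩ := hx; obtain ⟨b, rfl⟩ := hy; exact ⟨a + b, by rw [smul_add]⟩

theorem Div.sub {X : Type*} [AddCommGroup X] [Module Λ X] {x y : X} (hx : Div ϖ X x)
    (hy : Div ϖ X y) : Div ϖ X (x - y) := by
  obtain ⟨a, rfl⟩ := hx; obtain ⟨b, rfl⟩ := hy; exact ⟨a - b, by rw [smul_sub]⟩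

theorem Div.smul {X : Type*} [AddCommGroup X] [Module Λ X] {x : X} (hx : Div ϖ X x) (c : Λ) :
    Div ϖ X (c • x) := by
  obtain ⟨a, rfl⟩ := hx; exact ⟨c • a, by rw [smul_comm]⟩

theorem Div.map {X Y : Type*} [AddCommGroup X] [Module Λ X] [AddCommGroup Y] [Module Λ Y]
    (f : X →ₗ[Λ] Y) {x : X} (hx : Div ϖ X x) : Div ϖ Y (f x) := by
  obtain ⟨a, rfl⟩ := hx; exact ⟨f a, by rw [map_smul]⟩

theorem Div.self_smul {X : Type*} [AddCommGroup X] [Module Λ X] (x : X) : Div ϖ X (ϖ • x) :=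
  ⟨x, rfl⟩

theorem Div.zero {X : Type*} [AddCommGroup X] [Module Λ X] : Div ϖ X (0 : X) := ⟨0, by simp⟩

/-- If `c` is coprime to `ϖ` and `c • x` is divisible by `ϖ`, so is `x`. -/
theorem Div.of_isCoprime_smul {X : Type*} [AddCommGroup X] [Module Λ X] {c : Λ}
    (hc : IsCoprime c ϖ) {x : X} (hx : Div ϖ X (c • x)) : Div ϖ X x := by
  obtain ⟨u, v, huv⟩ := hc
  have : x = u • (c • x) + ϖ • (v • x) := by
    rw [smul_smul, smul_smul, ← add_smul, mul_comm ϖ v, huv, one_smul]
  rw [this]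
  exact (hx.smul u).add (Div.self_smul _)

/-- Polynomials in an operator act on an eigenvector mod `ϖ` through evaluation. -/
theorem aeval_eigen_mod {X : Type*} [AddCommGroup X] [Module Λ X] (f : Module.End Λ X) (c : Λ)
    (x : X) (hx : Div ϖ X (f x - c • x)) (P : Λ[X]) :
    Div ϖ X (aeval f P x - (P.eval c) • x) := by
  induction P using Polynomial.induction_on' with
  | add P Q hP hQ =>
    have : aeval f (P + Q) x - (P + Q).eval c • x =
        (aeval f P x - P.eval c • x) + (aeval f Q x - Q.eval c • x) := by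
      simp [add_smul]; abel
    rw [this]; exact hP.add hQ
  | monomial n a =>
    simp only [aeval_monomial, Module.algebraMap_end_apply, Module.End.mul_apply, eval_monomial]
    have key : Div ϖ X ((f ^ n) x - c ^ n • x) := by
      induction n with
      | zero => simpa using Div.zero
      | succ n ih =>
        have : (f ^ (n + 1)) x - c ^ (n + 1) • x =
            (f ^ n) (f x - c • x) + c • ((f ^ n) x - c ^ n • x) := by
          rw [pow_succ, Module.End.mul_apply, map_sub, map_smul, smul_sub, smul_smul,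
            ← pow_succ']
          abel
        rw [this]
        exact (Div.map (f ^ n) hx).add (ih.smul c)
    have : a • (f ^ n) x - (a * c ^ n) • x = a • ((f ^ n) x - c ^ n • x) := by
      rw [smul_sub, smul_smul]
    rw [this]
    exact key.smul a

/-- A monic polynomial whose lower coefficients are divisible by `ϖ` takes values coprime to `ϖ`
at arguments coprime to `ϖ`. -/
theorem isCoprime_eval_of_coeff_mem {P : Λ[X]} (hP : P.Monic)
    (hc : ∀ k, P.coeff k ∈ Ideal.span {ϖ} ^ (P.natDegree - k)) {z : Λ} (hz : IsCoprime z ϖ) :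
    IsCoprime (P.eval z) ϖ := by
  have hsum : ∃ t : Λ, P.eval z = z ^ P.natDegree + ϖ * t := by
    rw [Polynomial.eval_eq_sum_range, Finset.sum_range_succ, hP.coeff_natDegree, one_mul]
    have hmem : ∑ k ∈ Finset.range P.natDegree, P.coeff k * z ^ k ∈ Ideal.span {ϖ} := by
      refine Ideal.sum_mem _ fun k hk => ?_
      have hk' : k < P.natDegree := Finset.mem_range.mp hk
      have h1 : P.coeff k ∈ Ideal.span {ϖ} :=
        Ideal.pow_le_self (by omega) (hc k)
      exact Ideal.mul_mem_right _ _ h1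
    obtain ⟨t, ht⟩ := Ideal.mem_span_singleton'.mp hmem
    exact ⟨t, by rw [← ht]; ring⟩
  obtain ⟨t, ht⟩ := hsum
  rw [ht]
  exact (hz.pow_left).add_mul_left_left t

/-- **Abstract level-raising lemma, torsion form.**
`α : L₂ → M`, `β : M → L₂` Hecke-equivariant, `x₀ ∈ L₂` an eigenvector mod `ϖ` with
`β (α x₀) ≡ 0`.  If the kernel of `α` mod `ϖ` and the cokernel of `β` mod `ϖ` are killed by
`S i₀ - e` while the eigenvalue `a i₀` of `x₀` is not congruent to `e`, then `ker β` contains an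
eigenvector mod `ϖ` with the same eigenvalues which is not divisible by `ϖ`. -/
theorem exists_kernel_eigenvector
    {I : Type*} (S : I → Module.End Λ L₂) (T : I → Module.End Λ M) (a : I → Λ)
    (α : L₂ →ₗ[Λ] M) (β : M →ₗ[Λ] L₂)
    (hTcomm : ∀ i j m, T i (T j m) = T j (T i m))
    (hα : ∀ i x, α (S i x) = T i (α x))
    (hβ : ∀ i m, β (T i m) = S i (β m))
    (htf : ∀ y : L₂, ϖ • y = 0 → y = 0)
    (i₀ : I) (e : Λ) (he : IsCoprime (a i₀ - e) ϖ)
    (hIhara : ∀ x : L₂, Div ϖ M (α x) → Div ϖ L₂ (S i₀ x - e • x))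
    (hDual : ∀ y : L₂, ∃ m : M, Div ϖ L₂ (S i₀ y - e • y - β m))
    (x₀ : L₂) (hx₀ : ¬ Div ϖ L₂ x₀) (hx₀S : ∀ i, Div ϖ L₂ (S i x₀ - a i • x₀))
    (hx₀Δ : Div ϖ L₂ (β (α x₀))) :
    ∃ x : M, β x = 0 ∧ ¬ Div ϖ M x ∧ ∀ i, ∃ m : M, β m = 0 ∧ T i x - a i • x = ϖ • m := by
  classical
  set m₀ : M := α x₀ with hm₀def
  -- `m₀` is not divisible by `ϖ`
  have hm₀ : ¬ Div ϖ M m₀ := by
    intro hdiv
    have h1 := hIhara x₀ hdiv
    have h2 := hx₀S i₀
    have h3 : (a i₀ - e) • x₀ = (S i₀ x₀ - e • x₀) - (S i₀ x₀ - a i₀ • x₀) := by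
      rw [sub_smul]; abel
    exact hx₀ (Div.of_isCoprime_smul he (h3 ▸ h1.sub h2))
  -- `m₀` is an eigenvector mod `ϖ`
  have hm₀T : ∀ i, Div ϖ M (T i m₀ - a i • m₀) := by
    intro i
    have : T i m₀ - a i • m₀ = α (S i x₀ - a i • x₀) := by
      rw [map_sub, map_smul, hα]
    rw [this]
    exact Div.map α (hx₀S i)
  -- the operators `r = S i₀ - e` and `T' = T i₀ - e`
  set r : Module.End Λ L₂ := S i₀ - e • (1 : Module.End Λ L₂) with hr
  set T' : Module.End Λ M := T i₀ - e • (1 : Module.End Λ M) with hT'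
  have hr_apply : ∀ y, r y = S i₀ y - e • y := fun y => by simp [hr]
  have hT'_apply : ∀ m, T' m = T i₀ m - e • m := fun m => by simp [hT']
  have hβT' : ∀ m, β (T' m) = r (β m) := by
    intro m; rw [hT'_apply, hr_apply, map_sub, map_smul, hβ]
  -- the induced operator on the cokernel of `β`
  have hrange : LinearMap.range β ≤ (LinearMap.range β).comap r := by
    rintro _ ⟨m, rfl⟩
    exact ⟨T' m, hβT' m⟩
  set rbar : Module.End Λ (L₂ ⧸ LinearMap.range β) :=
    (LinearMap.range β).mapQ (LinearMap.range β) r hrange with hrbar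
  have hrbar_mk : ∀ y : L₂, (LinearMap.range β).mkQ (r y) = rbar ((LinearMap.range β).mkQ y) := by
    intro y; rfl
  have hI : LinearMap.range rbar ≤ (Ideal.span {ϖ}) • (⊤ : Submodule Λ (L₂ ⧸ LinearMap.range β)) := by
    rintro _ ⟨q, rfl⟩
    obtain ⟨y, rfl⟩ := (LinearMap.range β).mkQ_surjective q
    obtain ⟨m, z, hz⟩ := hDual y
    have h1 : r y = β m + ϖ • z := by rw [hr_apply]; rw [← hz]; abel
    rw [← hrbar_mk, h1, map_add, map_smul]
    have h2 : (LinearMap.range β).mkQ (β m) = 0 := by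
      rw [Submodule.mkQ_apply, Submodule.Quotient.mk_eq_zero]; exact ⟨m, rfl⟩
    rw [h2, zero_add]
    exact Submodule.smul_mem_smul (Ideal.subset_span rfl) Submodule.mem_top
  obtain ⟨P, hPmonic, -, hPcoeff, hPzero⟩ :=
    LinearMap.exists_monic_and_natDegree_eq_and_coeff_mem_pow_and_aeval_eq_zero Λ rbar
      (Ideal.span {ϖ}) hI
  -- `P(r)` maps `L₂` into the range of `β`
  have hPr : ∀ y : L₂, ∃ w : M, β w = aeval r P y := by
    intro y
    have h1 := aeval_intertwine r rbar (LinearMap.range β).mkQ hrbar_mk P y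
    rw [hPzero, LinearMap.zero_apply, Submodule.mkQ_apply, Submodule.Quotient.mk_eq_zero] at h1
    exact h1
  have hβP : ∀ m, β (aeval T' P m) = aeval r P (β m) :=
    fun m => aeval_intertwine T' r β hβT' P m
  set c : Λ := P.eval (a i₀ - e) with hc
  have hcop : IsCoprime c ϖ := isCoprime_eval_of_coeff_mem hPmonic hPcoeff he
  obtain ⟨y₀, hy₀⟩ := hx₀Δ
  obtain ⟨w, hw⟩ := hPr y₀
  -- `P(T') m₀ ≡ c m₀`
  have hPm₀ : Div ϖ M (aeval T' P m₀ - c • m₀) := by
    refine aeval_eigen_mod T' (a i₀ - e) m₀ ?_ P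
    have : T' m₀ - (a i₀ - e) • m₀ = T i₀ m₀ - a i₀ • m₀ := by
      rw [hT'_apply, sub_smul]; abel
    rw [this]; exact hm₀T i₀
  refine ⟨aeval T' P m₀ - ϖ • w, ?_, ?_, ?_⟩
  · rw [map_sub, map_smul, hβP, hw, hy₀, map_smul, sub_self]
  · intro hdiv
    have h1 : Div ϖ M (aeval T' P m₀) := by
      have := hdiv.add (Div.self_smul w)
      simpa using this
    have h2 : Div ϖ M (c • m₀) := by
      have := h1.sub hPm₀
      simpa using this
    exact hm₀ (Div.of_isCoprime_smul hcop h2)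
  · intro i
    have hcommT' : ∀ m, T i (T' m) = T' (T i m) := by
      intro m; rw [hT'_apply, hT'_apply, map_sub, map_smul, hTcomm]
    have hTP : ∀ m, T i (aeval T' P m) = aeval T' P (T i m) :=
      fun m => aeval_intertwine T' T' (T i) hcommT' P m
    have hdiv : Div ϖ M (T i (aeval T' P m₀ - ϖ • w) - a i • (aeval T' P m₀ - ϖ • w)) := by
      have : T i (aeval T' P m₀ - ϖ • w) - a i • (aeval T' P m₀ - ϖ • w) =
          aeval T' P (T i m₀ - a i • m₀) - ϖ • (T i w - a i • w) := by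
        rw [map_sub, map_smul, hTP, map_sub, map_smul, smul_sub, smul_sub,
          smul_comm (a i) ϖ w]
        abel
      rw [this]
      exact (Div.map _ (hm₀T i)).sub (Div.self_smul _)
    obtain ⟨m, hm⟩ := hdiv
    refine ⟨m, ?_, hm⟩
    apply htf
    have hx : β (aeval T' P m₀ - ϖ • w) = 0 := by
      rw [map_sub, map_smul, hβP, hw, hy₀, map_smul, sub_self]
    rw [← map_smul, ← hm, map_sub, map_smul, hβ, hx, map_zero, smul_zero, sub_zero]

end Core

section Prod

variable {Λ : Type*} [CommRing Λ] {ϖ : Λ}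
variable {L M : Type*} [AddCommGroup L] [Module Λ L] [Module.Finite Λ L]
  [AddCommGroup M] [Module Λ M]

theorem div_prod_iff {X Y : Type*} [AddCommGroup X] [Module Λ X] [AddCommGroup Y] [Module Λ Y]
    (z : X × Y) : Div ϖ (X × Y) z ↔ Div ϖ X z.1 ∧ Div ϖ Y z.2 := by
  constructor
  · rintro ⟨w, rfl⟩; exact ⟨⟨w.1, rfl⟩, ⟨w.2, rfl⟩⟩
  · rintro ⟨⟨u, hu⟩, ⟨v, hv⟩⟩
    exact ⟨(u, v), Prod.ext (by simpa using hu) (by simpa using hv)⟩

/-- **Abstract level-raising lemma for `L × L`** (the shape used for `S41`).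
`L` = parabolic classes of level `N`, `M` = level `N q'`, `α` the sum of the two restriction maps,
`β` the pair of transfers, `β α = [[c, τ], [τ, c]]` with `c = q' + 1`, `τ = T_{q'}`.
`v₀ ∈ L` an eigenvector mod `ϖ` with `τ² v₀ ≡ c² v₀`.  `i₀`, `e`: a Hecke operator whose
Eisenstein eigenvalue `e` differs mod `ϖ` from the eigenvalue `a i₀` of `v₀`; `hIhara` is Ihara's
lemma and `hDual` its Poincare dual.  Conclusion: an element of `ker β`, not divisible by `ϖ`,
which is an eigenvector mod `ϖ · ker β` with the eigenvalues `a i`. -/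
theorem exists_kernel_eigenvector_prod
    {I : Type*} (S : I → Module.End Λ L) (T : I → Module.End Λ M) (a : I → Λ)
    (α : L × L →ₗ[Λ] M) (β : M →ₗ[Λ] L × L)
    (hTcomm : ∀ i j m, T i (T j m) = T j (T i m))
    (hα : ∀ i x, α (S i x.1, S i x.2) = T i (α x))
    (hβ : ∀ i m, β (T i m) = (S i (β m).1, S i (β m).2))
    (htf : ∀ y : L, ϖ • y = 0 → y = 0)
    (τ : Module.End Λ L) (c : Λ) (hτS : ∀ i x, τ (S i x) = S i (τ x))
    (hβα : ∀ x, β (α x) = (c • x.1 + τ x.2, τ x.1 + c • x.2))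
    (i₀ : I) (e : Λ) (he : IsCoprime (a i₀ - e) ϖ)
    (hIhara : ∀ x : L × L, Div ϖ M (α x) →
      Div ϖ L (S i₀ x.1 - e • x.1) ∧ Div ϖ L (S i₀ x.2 - e • x.2))
    (hDual : ∀ y : L × L, ∃ m : M,
      Div ϖ L (S i₀ y.1 - e • y.1 - (β m).1) ∧ Div ϖ L (S i₀ y.2 - e • y.2 - (β m).2))
    (v₀ : L) (hv₀ : ¬ Div ϖ L v₀) (hv₀S : ∀ i, Div ϖ L (S i v₀ - a i • v₀))
    (hv₀τ : Div ϖ L (τ (τ v₀) - (c * c) • v₀)) :
    ∃ x : M, β x = 0 ∧ ¬ Div ϖ M x ∧ ∀ i, ∃ m : M, β m = 0 ∧ T i x - a i • x = ϖ • m := by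
  classical
  -- the eigenvector `x₀` of `L × L` with `Δ x₀ ≡ 0`
  have hτv₀S : ∀ i, Div ϖ L (S i (τ v₀) - a i • τ v₀) := by
    intro i
    have : S i (τ v₀) - a i • τ v₀ = τ (S i v₀ - a i • v₀) := by
      rw [map_sub, map_smul, hτS]
    rw [this]; exact Div.map τ (hv₀S i)
  obtain ⟨x₀, hx₀, hx₀S, hx₀Δ⟩ : ∃ x₀ : L × L, ¬ Div ϖ (L × L) x₀ ∧
      (∀ i, Div ϖ L (S i x₀.1 - a i • x₀.1) ∧ Div ϖ L (S i x₀.2 - a i • x₀.2)) ∧
      Div ϖ (L × L) (β (α x₀)) := by
    by_cases h : Div ϖ (L × L) (c • v₀, - τ v₀)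
    · rw [div_prod_iff] at h
      obtain ⟨h1, h2⟩ := h
      have h2' : Div ϖ L (τ v₀) := by
        have := (Div.zero (ϖ := ϖ) (X := L)).sub h2
        simpa using this
      refine ⟨(v₀, 0), ?_, ?_, ?_⟩
      · rw [div_prod_iff]; exact fun h => hv₀ h.1
      · intro i; exact ⟨hv₀S i, by simpa using Div.zero⟩
      · rw [hβα, div_prod_iff]
        constructor
        · simpa using h1
        · simpa using h2'
    · refine ⟨(c • v₀, - τ v₀), h, ?_, ?_⟩
      · intro i
        constructor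
        · have : S i (c • v₀) - a i • c • v₀ = c • (S i v₀ - a i • v₀) := by
            rw [map_smul, smul_sub, smul_comm]
          show Div ϖ L (S i (c • v₀) - a i • c • v₀)
          rw [this]; exact (hv₀S i).smul c
        · have : S i (- τ v₀) - a i • (- τ v₀) = (-1 : Λ) • (S i (τ v₀) - a i • τ v₀) := by
            rw [map_neg, smul_neg, neg_one_smul]; abel
          show Div ϖ L (S i (- τ v₀) - a i • (- τ v₀))
          rw [this]; exact (hτv₀S i).smul _
      · rw [hβα, div_prod_iff]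
        constructor
        · have : c • c • v₀ + τ (- τ v₀) = (-1 : Λ) • (τ (τ v₀) - (c * c) • v₀) := by
            rw [map_neg, neg_one_smul, smul_smul]; abel
          show Div ϖ L (c • c • v₀ + τ (- τ v₀))
          rw [this]; exact hv₀τ.smul _
        · have : τ (c • v₀) + c • (- τ v₀) = 0 := by
            rw [map_smul, smul_neg]; abel
          show Div ϖ L (τ (c • v₀) + c • (- τ v₀))
          rw [this]; exact Div.zero
  refine exists_kernel_eigenvector (fun i => (S i).prodMap (S i)) T a α β hTcomm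
    (fun i x => by simpa using hα i x) (fun i m => by simpa using hβ i m)
    (fun y hy => Prod.ext (htf y.1 (by simpa using congrArg Prod.fst hy))
      (htf y.2 (by simpa using congrArg Prod.snd hy)))
    i₀ e he ?_ ?_ x₀ hx₀ ?_ hx₀Δ
  · intro x hx
    rw [div_prod_iff]
    simpa using hIhara x hx
  · intro y
    obtain ⟨m, hm1, hm2⟩ := hDual y
    refine ⟨m, ?_⟩
    rw [div_prod_iff]
    simpa using ⟨hm1, hm2⟩
  · intro i
    rw [div_prod_iff]
    simpa using hx₀S i

end Prod

end Fermat.Agent.S41.R1.CongruenceLemma
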