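/-
S41 / (P5) formal corollary (volunteer leaf, helper20).  Mathlib only.

"Dual Ihara from Poincaré duality": if `α : L₂ → M` and `β : M → L₂` are adjoint for pairings that
are nondegenerate mod `p`, and a self-adjoint operator `s` (think `s = T_{ℓ₀} - (ℓ₀ + 1)`) kills
the kernel of `α` mod `p` (Ihara), then `s` maps into the image of `β` mod `p` (dual Ihara).
This is literally the hypothesis `hDual` of `CongruenceLemma.exists_kernel_eigenvector`.

* `range_le_range_of_ker_le` : the statement over a field.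
* `exists_sub_eq_smul` : the integral statement for `ℤ`-lattices with pairings nondegenerate mod `p`
  (what a unimodular integral duality gives); no symmetry of the forms is assumed.
-/
import Mathlib

set_option autoImplicit false

namespace Fermat.Agent.S41.R1.DualIhara

open TensorProduct

section Field

variable {k : Type*} [Field k]
variable {V U : Type*} [AddCommGroup V] [Module k V] [FiniteDimensional k V]
  [AddCommGroup U] [Module k U]

/-- A left-nondegenerate bilinear form on a finite-dimensional space represents every functional. -/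
theorem exists_repr_of_left_nondegenerate (BV : V →ₗ[k] V →ₗ[k] k)
    (hBV : ∀ x : V, (∀ y, BV x y = 0) → x = 0) (f : V →ₗ[k] k) : ∃ x : V, BV x = f := by
  have hinj : Function.Injective BV := by
    rw [← LinearMap.ker_eq_bot, LinearMap.ker_eq_bot']
    intro x hx
    exact hBV x fun y => by rw [hx]; rfl
  have hdim : Module.finrank k V = Module.finrank k (V →ₗ[k] k) :=
    (Subspace.dual_finrank_eq (K := k) (V := V)).symm
  exact (LinearMap.injective_iff_surjective_of_finrank_eq_finrank hdim).mp hinj f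

/-- **Dual Ihara, field form.**  `a`, `b` adjoint for left-nondegenerate forms, `s` self-adjoint,
`ker a ≤ ker s`; then `range s ≤ range b`. -/
theorem range_le_range_of_ker_le
    (BV : V →ₗ[k] V →ₗ[k] k) (BU : U →ₗ[k] U →ₗ[k] k)
    (hBV : ∀ x : V, (∀ y, BV x y = 0) → x = 0)
    (hBU : ∀ u : U, (∀ w, BU u w = 0) → u = 0)
    (a : V →ₗ[k] U) (b : U →ₗ[k] V)
    (hadj : ∀ x u, BU (a x) u = BV x (b u))
    (s : V →ₗ[k] V) (hs : ∀ x y, BV (s x) y = BV x (s y))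
    (hker : ∀ x, a x = 0 → s x = 0) :
    LinearMap.range s ≤ LinearMap.range b := by
  rintro _ ⟨y, rfl⟩
  by_contra hy
  obtain ⟨f, hfy, hf⟩ := Submodule.exists_le_ker_of_notMem hy
  obtain ⟨x, rfl⟩ := exists_repr_of_left_nondegenerate BV hBV f
  have hax : a x = 0 := by
    apply hBU
    intro w
    rw [hadj]
    exact LinearMap.mem_ker.mp (hf ⟨w, rfl⟩)
  apply hfy
  rw [← hs, hker x hax]
  simp

end Field

section Integral

variable {Λ : Type*} [CommRing Λ] (ϖ : Λ) [hmax : (Ideal.span {ϖ}).IsMaximal]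
variable {L M : Type*} [AddCommGroup L] [Module Λ L] [Module.Finite Λ L]
  [AddCommGroup M] [Module Λ M]

/-- the residue field `Λ / ϖ` -/
abbrev kp : Type _ := Λ ⧸ Ideal.span {ϖ}

noncomputable instance kp_field : Field (kp ϖ) := Ideal.Quotient.field (Ideal.span {ϖ})

omit hmax in
theorem algebraMap_kp_eq_zero_iff (r : Λ) : algebraMap Λ (kp ϖ) r = 0 ↔ ϖ ∣ r := by
  rw [Ideal.Quotient.algebraMap_eq, Ideal.Quotient.eq_zero_iff_mem, Ideal.mem_span_singleton]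

variable {ϖ}

omit hmax in
/-- every element of `kp ⊗ X` is of the form `1 ⊗ x` -/
theorem exists_one_tmul {X : Type*} [AddCommGroup X] [Module Λ X] (ξ : kp ϖ ⊗[Λ] X) :
    ∃ x : X, ξ = (1 : kp ϖ) ⊗ₜ[Λ] x := by
  induction ξ using TensorProduct.induction_on with
  | zero => exact ⟨0, by simp⟩
  | tmul c x =>
    obtain ⟨n, rfl⟩ := Ideal.Quotient.mk_surjective c
    refine ⟨n • x, ?_⟩
    have hn : Ideal.Quotient.mk (Ideal.span {ϖ}) n = n • (1 : kp ϖ) := by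
      rw [Algebra.smul_def, mul_one]; rfl
    rw [hn, TensorProduct.smul_tmul]
  | add ξ η hξ hη =>
    obtain ⟨x, rfl⟩ := hξ
    obtain ⟨y, rfl⟩ := hη
    exact ⟨x + y, by rw [TensorProduct.tmul_add]⟩

omit hmax in
/-- `1 ⊗ x = 0` in `kp ⊗ X` iff `x` is divisible by `ϖ` -/
theorem one_tmul_eq_zero_iff {X : Type*} [AddCommGroup X] [Module Λ X] (x : X) :
    ((1 : kp ϖ) ⊗ₜ[Λ] x = 0) ↔ ∃ x' : X, x = ϖ • x' := by
  rw [← (TensorProduct.quotTensorEquivQuotSMul X (Ideal.span {ϖ})).map_eq_zero_iff,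
    TensorProduct.quotTensorEquivQuotSMul_mk_one_tmul, Submodule.Quotient.mk_eq_zero]
  constructor
  · intro hx
    refine Submodule.smul_induction_on hx ?_ ?_
    · intro r hr n _
      obtain ⟨t, rfl⟩ := Ideal.mem_span_singleton.mp hr
      exact ⟨t • n, by rw [mul_smul]⟩
    · rintro a b ⟨a', rfl⟩ ⟨b', rfl⟩
      exact ⟨a' + b', by rw [smul_add]⟩
  · rintro ⟨y, rfl⟩
    exact Submodule.smul_mem_smul (Ideal.mem_span_singleton_self _) Submodule.mem_top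

variable (ϖ)

/-- **Dual Ihara, integral form.**  Literally `hDual` of the abstract level-raising lemma
(with `s = S i₀ - e • 1`): for every `y` there is `m` with `s y - β m ∈ ϖ L`.
`Λ = ℤ`, `ϖ = p` in the application; the pairings only need to be nondegenerate mod `ϖ`. -/
theorem exists_sub_eq_smul
    (BL : L →ₗ[Λ] L →ₗ[Λ] Λ) (BM : M →ₗ[Λ] M →ₗ[Λ] Λ)
    (hBL : ∀ x : L, (∀ y, ϖ ∣ BL x y) → ∃ x' : L, x = ϖ • x')
    (hBM : ∀ m : M, (∀ n, ϖ ∣ BM m n) → ∃ m' : M, m = ϖ • m')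
    (α : L →ₗ[Λ] M) (β : M →ₗ[Λ] L)
    (hadj : ∀ x m, BM (α x) m = BL x (β m))
    (s : L →ₗ[Λ] L) (hs : ∀ x y, BL (s x) y = BL x (s y))
    (hIhara : ∀ x : L, (∃ m' : M, α x = ϖ • m') → ∃ x' : L, s x = ϖ • x') :
    ∀ y : L, ∃ m : M, ∃ z : L, s y - β m = ϖ • z := by
  intro y
  -- base change everything to the residue field
  let BV : (kp ϖ ⊗[Λ] L) →ₗ[kp ϖ] (kp ϖ ⊗[Λ] L) →ₗ[kp ϖ] kp ϖ :=
    LinearMap.BilinForm.baseChange (kp ϖ) BL
  let BU : (kp ϖ ⊗[Λ] M) →ₗ[kp ϖ] (kp ϖ ⊗[Λ] M) →ₗ[kp ϖ] kp ϖ :=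
    LinearMap.BilinForm.baseChange (kp ϖ) BM
  have hBVt : ∀ x x' : L,
      BV ((1 : kp ϖ) ⊗ₜ x) ((1 : kp ϖ) ⊗ₜ x') = algebraMap Λ (kp ϖ) (BL x x') := by
    intro x x'
    show LinearMap.BilinForm.baseChange (kp ϖ) BL _ _ = _
    rw [LinearMap.BilinForm.baseChange_tmul, mul_one, Algebra.algebraMap_eq_smul_one]
  have hBUt : ∀ m m' : M,
      BU ((1 : kp ϖ) ⊗ₜ m) ((1 : kp ϖ) ⊗ₜ m') = algebraMap Λ (kp ϖ) (BM m m') := by
    intro m m'
    show LinearMap.BilinForm.baseChange (kp ϖ) BM _ _ = _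
    rw [LinearMap.BilinForm.baseChange_tmul, mul_one, Algebra.algebraMap_eq_smul_one]
  have h := range_le_range_of_ker_le (k := kp ϖ) BV BU ?_ ?_
    (α.baseChange (kp ϖ)) (β.baseChange (kp ϖ)) ?_ (s.baseChange (kp ϖ)) ?_ ?_
    ⟨(1 : kp ϖ) ⊗ₜ y, rfl⟩
  · obtain ⟨υ, hυ⟩ := h
    obtain ⟨m, rfl⟩ := exists_one_tmul υ
    refine ⟨m, ?_⟩
    rw [← one_tmul_eq_zero_iff (ϖ := ϖ), TensorProduct.tmul_sub, sub_eq_zero]
    simpa using hυ.symm
  · intro ξ hξ
    obtain ⟨x, rfl⟩ := exists_one_tmul ξ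
    rw [one_tmul_eq_zero_iff]
    apply hBL
    intro x'
    rw [← algebraMap_kp_eq_zero_iff, ← hBVt]
    exact hξ _
  · intro υ hυ
    obtain ⟨m, rfl⟩ := exists_one_tmul υ
    rw [one_tmul_eq_zero_iff]
    apply hBM
    intro m'
    rw [← algebraMap_kp_eq_zero_iff, ← hBUt]
    exact hυ _
  · intro ξ υ
    obtain ⟨x, rfl⟩ := exists_one_tmul ξ
    obtain ⟨m, rfl⟩ := exists_one_tmul υ
    rw [LinearMap.baseChange_tmul, LinearMap.baseChange_tmul, hBVt, hBUt, hadj]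
  · intro ξ η
    obtain ⟨x, rfl⟩ := exists_one_tmul ξ
    obtain ⟨x', rfl⟩ := exists_one_tmul η
    rw [LinearMap.baseChange_tmul, LinearMap.baseChange_tmul, hBVt, hBVt, hs]
  · intro ξ hξ
    obtain ⟨x, rfl⟩ := exists_one_tmul ξ
    rw [LinearMap.baseChange_tmul, one_tmul_eq_zero_iff] at hξ
    rw [LinearMap.baseChange_tmul, one_tmul_eq_zero_iff]
    exact hIhara x hξ

/-- The same with `s = S₀ - e • 1`, in the literal shape of `hIhara` / `hDual` of
`CongruenceLemma.exists_kernel_eigenvector` (`Div ϖ X x` there unfolds to `∃ y, x = ϖ • y`). -/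
theorem hDual_of_hIhara
    (BL : L →ₗ[Λ] L →ₗ[Λ] Λ) (BM : M →ₗ[Λ] M →ₗ[Λ] Λ)
    (hBL : ∀ x : L, (∀ y, ϖ ∣ BL x y) → ∃ x' : L, x = ϖ • x')
    (hBM : ∀ m : M, (∀ n, ϖ ∣ BM m n) → ∃ m' : M, m = ϖ • m')
    (α : L →ₗ[Λ] M) (β : M →ₗ[Λ] L)
    (hadj : ∀ x m, BM (α x) m = BL x (β m))
    (S₀ : Module.End Λ L) (e : Λ) (hS : ∀ x y, BL (S₀ x) y = BL x (S₀ y))
    (hIhara : ∀ x : L, (∃ m' : M, α x = ϖ • m') → ∃ x' : L, S₀ x - e • x = ϖ • x') :
    ∀ y : L, ∃ m : M, ∃ z : L, S₀ y - e • y - β m = ϖ • z := by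
  have h := exists_sub_eq_smul ϖ BL BM hBL hBM α β hadj (S₀ - e • LinearMap.id)
    (fun x y => by
      simp only [LinearMap.sub_apply, LinearMap.smul_apply, LinearMap.id_apply, map_sub,
        map_smul, hS, smul_eq_mul])
    (fun x hx => by simpa using hIhara x hx)
  intro y
  obtain ⟨m, z, hz⟩ := h y
  exact ⟨m, z, by simpa using hz⟩

/-- The orthogonal sum of two copies of a pairing, on `L × L`. -/
def prodForm (B : L →ₗ[Λ] L →ₗ[Λ] Λ) : (L × L) →ₗ[Λ] (L × L) →ₗ[Λ] Λ :=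
  B.compl₁₂ (LinearMap.fst Λ L L) (LinearMap.fst Λ L L) +
    B.compl₁₂ (LinearMap.snd Λ L L) (LinearMap.snd Λ L L)

omit hmax [Module.Finite Λ L] in
@[simp] theorem prodForm_apply (B : L →ₗ[Λ] L →ₗ[Λ] Λ) (x y : L × L) :
    prodForm B x y = B x.1 y.1 + B x.2 y.2 := rfl

omit hmax [Module.Finite Λ L] in
/-- Nondegeneracy mod `ϖ` passes to the orthogonal sum. -/
theorem prodForm_nondeg (B : L →ₗ[Λ] L →ₗ[Λ] Λ)
    (hB : ∀ x : L, (∀ y, ϖ ∣ B x y) → ∃ x' : L, x = ϖ • x') :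
    ∀ x : L × L, (∀ y, ϖ ∣ prodForm B x y) → ∃ x' : L × L, x = ϖ • x' := by
  rintro ⟨x₁, x₂⟩ h
  obtain ⟨a, rfl⟩ := hB x₁ fun y => by simpa using h (y, 0)
  obtain ⟨b, rfl⟩ := hB x₂ fun y => by simpa using h (0, y)
  exact ⟨(a, b), rfl⟩

omit hmax [Module.Finite Λ L] in
/-- Adjointness of `α = res₁ ⊕ res₂` and `β = (tr₁, tr₂)` from the two adjunctions. -/
theorem coprod_prod_adjoint (B : L →ₗ[Λ] L →ₗ[Λ] Λ) (BM : M →ₗ[Λ] M →ₗ[Λ] Λ)
    (res₁ res₂ : L →ₗ[Λ] M) (tr₁ tr₂ : M →ₗ[Λ] L)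
    (h₁ : ∀ x m, BM (res₁ x) m = B x (tr₁ m)) (h₂ : ∀ x m, BM (res₂ x) m = B x (tr₂ m)) :
    ∀ (x : L × L) (m : M),
      BM (LinearMap.coprod res₁ res₂ x) m = prodForm B x (LinearMap.prod tr₁ tr₂ m) := by
  intro x m
  simp [LinearMap.coprod_apply, h₁, h₂]

omit hmax [Module.Finite Λ L] in
/-- Self-adjointness of `S ⊕ S` on `L × L`. -/
theorem prodMap_selfAdjoint (B : L →ₗ[Λ] L →ₗ[Λ] Λ) (S₀ : Module.End Λ L)
    (hS : ∀ x y, B (S₀ x) y = B x (S₀ y)) :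
    ∀ x y : L × L, prodForm B (LinearMap.prodMap S₀ S₀ x) y
      = prodForm B x (LinearMap.prodMap S₀ S₀ y) := by
  intro x y
  simp [hS]

/-- The instance needed to apply `exists_sub_eq_smul` with `Λ = ℤ`, `ϖ = p`. -/
theorem isMaximal_span_natCast {p : ℕ} (hp : p.Prime) : (Ideal.span {(p : ℤ)}).IsMaximal :=
  PrincipalIdealRing.isMaximal_of_irreducible (Nat.prime_iff_prime_int.mp hp).irreducible

end Integral

end Fermat.Agent.S41.R1.DualIhara
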