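/-
S41 / (P5) -> (P8) joint, abstract core (helper20).  Mathlib + `R1/DualIhara` only.

`hDual_of_pairings` : the hypothesis `hDual` of the abstract level-raising lemma
(`CongruenceLemma.exists_kernel_eigenvector_prod`, `Assembly.exists_new_vector`) from
* `ℤ`-valued biadditive pairings `BL` on `L` (level `N`) and `BM` on `M` (level `N q`), both
  nondegenerate mod `p` (UNI_p),
* (ADJ) `BM (res1 x) m = BL x (tr1 m)`, (ISO) `BM (w a) (w b) = BM a b`, `w ∘ w = id`,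
* self-adjointness of `S₀ = T_{ℓ₀}` for `BL`,
* Ihara's lemma `hIhara`.
Here `res2 = w ∘ res1`, `tr2 = tr1 ∘ w`.  The pairings are plain functions, only biadditivity is
assumed.

`selfAdjoint_of_factor` : self-adjointness of `S₀ = tr1' ∘ w' ∘ res1'` from (ADJ) in both variable
orders and (ISO) for an auxiliary level; `adjFlip_of_skew` : (ADJ) in the other variable order from
skew-symmetry (or symmetry) of the pairings.
-/
import Mathlib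
import Fermat.Agent.S41.R1.DualIhara

set_option autoImplicit false

namespace Fermat.Agent.S41.R1.DualIharaInst

open Fermat.Agent.S41.R1.DualIhara

section Biadd

variable {X : Type*} [AddCommGroup X]

/-- A biadditive `ℤ`-valued function as a `ℤ`-bilinear form. -/
def bilinOfBiadd (B : X → X → ℤ) (hl : ∀ x x' y, B (x + x') y = B x y + B x' y)
    (hr : ∀ x y y', B x (y + y') = B x y + B x y') : X →ₗ[ℤ] X →ₗ[ℤ] ℤ :=
  LinearMap.mk₂ ℤ B hl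
    (fun c x y => map_zsmul (AddMonoidHom.mk' (fun x => B x y) (fun a b => hl a b y)) c x)
    hr
    (fun c x y => map_zsmul (AddMonoidHom.mk' (fun y => B x y) (fun a b => hr x a b)) c y)

@[simp] theorem bilinOfBiadd_apply (B : X → X → ℤ) (hl : ∀ x x' y, B (x + x') y = B x y + B x' y)
    (hr : ∀ x y y', B x (y + y') = B x y + B x y') (x y : X) :
    bilinOfBiadd B hl hr x y = B x y := rfl

end Biadd

section SelfAdjoint

variable {L M' : Type*}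

/-- (ADJ) in the other variable order, from skew-symmetry of both pairings. -/
theorem adjFlip_of_skew (BL : L → L → ℤ) (BM' : M' → M' → ℤ)
    (hskL : ∀ x y, BL x y = - BL y x) (hskM : ∀ a b, BM' a b = - BM' b a)
    (res1' : L → M') (tr1' : M' → L)
    (adj : ∀ x m, BM' (res1' x) m = BL x (tr1' m)) :
    ∀ m y, BL (tr1' m) y = BM' m (res1' y) := by
  intro m y
  rw [hskL, ← adj, ← hskM]

/-- (ADJ) in the other variable order, from symmetry of both pairings. -/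
theorem adjFlip_of_symm (BL : L → L → ℤ) (BM' : M' → M' → ℤ)
    (hsyL : ∀ x y, BL x y = BL y x) (hsyM : ∀ a b, BM' a b = BM' b a)
    (res1' : L → M') (tr1' : M' → L)
    (adj : ∀ x m, BM' (res1' x) m = BL x (tr1' m)) :
    ∀ m y, BL (tr1' m) y = BM' m (res1' y) := by
  intro m y
  rw [hsyL, ← adj, ← hsyM]

/-- `S₀ = tr1' ∘ w' ∘ res1'` is self-adjoint for `BL`. -/
theorem selfAdjoint_of_factor (BL : L → L → ℤ) (BM' : M' → M' → ℤ)
    (res1' : L → M') (tr1' : M' → L) (w' : M' → M')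
    (hww : ∀ m, w' (w' m) = m)
    (adj : ∀ x m, BM' (res1' x) m = BL x (tr1' m))
    (adjFlip : ∀ m y, BL (tr1' m) y = BM' m (res1' y))
    (iso : ∀ a b, BM' (w' a) (w' b) = BM' a b)
    (S₀ : L → L) (hS₀ : ∀ x, S₀ x = tr1' (w' (res1' x))) :
    ∀ x y, BL (S₀ x) y = BL x (S₀ y) := by
  intro x y
  rw [hS₀, hS₀, adjFlip, ← iso, hww, adj]

end SelfAdjoint

section Main

variable {L M : Type*} [AddCommGroup L] [Module.Finite ℤ L] [AddCommGroup M]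

/-- **`hDual` from lattice Poincaré duality and Ihara's lemma.** -/
theorem hDual_of_pairings {p : ℕ} (hp : p.Prime)
    (BL : L → L → ℤ) (BM : M → M → ℤ)
    (hBLl : ∀ x x' y, BL (x + x') y = BL x y + BL x' y)
    (hBLr : ∀ x y y', BL x (y + y') = BL x y + BL x y')
    (hBMl : ∀ a a' b, BM (a + a') b = BM a b + BM a' b)
    (hBMr : ∀ a b b', BM a (b + b') = BM a b + BM a b')
    (uniL : ∀ x : L, (∀ y, (p : ℤ) ∣ BL x y) → ∃ x' : L, x = (p : ℤ) • x')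
    (uniM : ∀ m : M, (∀ n, (p : ℤ) ∣ BM m n) → ∃ m' : M, m = (p : ℤ) • m')
    (res1 : L →ₗ[ℤ] M) (tr1 : M →ₗ[ℤ] L) (w : M →ₗ[ℤ] M)
    (hww : ∀ m, w (w m) = m)
    (adj : ∀ x m, BM (res1 x) m = BL x (tr1 m))
    (iso : ∀ a b, BM (w a) (w b) = BM a b)
    (S₀ : L →ₗ[ℤ] L) (e : ℤ) (hS : ∀ x y, BL (S₀ x) y = BL x (S₀ y))
    (hIhara : ∀ x y : L, (∃ m : M, res1 x + w (res1 y) = (p : ℤ) • m) →
      (∃ u : L, S₀ x - e • x = (p : ℤ) • u) ∧ (∃ u : L, S₀ y - e • y = (p : ℤ) • u)) :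
    ∀ x y : L, ∃ m : M, (∃ u : L, S₀ x - e • x - tr1 m = (p : ℤ) • u) ∧
      (∃ u : L, S₀ y - e • y - tr1 (w m) = (p : ℤ) • u) := by
  have : (Ideal.span {(p : ℤ)}).IsMaximal := isMaximal_span_natCast hp
  have adj2 : ∀ x m, BM (w (res1 x)) m = BL x (tr1 (w m)) := by
    intro x m
    rw [← iso, hww, adj]
  have key := hDual_of_hIhara (Λ := ℤ) (L := L × L) (M := M) (p : ℤ)
    (prodForm (bilinOfBiadd BL hBLl hBLr)) (bilinOfBiadd BM hBMl hBMr)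
    (prodForm_nondeg (p : ℤ) _ (fun x h => uniL x (by simpa using h)))
    (fun m h => uniM m (by simpa using h))
    (LinearMap.coprod res1 (w.comp res1)) (LinearMap.prod tr1 (tr1.comp w))
    (coprod_prod_adjoint _ _ res1 (w.comp res1) tr1 (tr1.comp w)
      (fun x m => by simpa using adj x m) (fun x m => by simpa using adj2 x m))
    (LinearMap.prodMap S₀ S₀) e
    (prodMap_selfAdjoint _ S₀ (fun x y => by simpa using hS x y))
    (by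
      rintro ⟨x, y⟩ ⟨m, hm⟩
      obtain ⟨⟨u, hu⟩, ⟨v, hv⟩⟩ := hIhara x y ⟨m, by simpa [LinearMap.coprod_apply] using hm⟩
      exact ⟨(u, v), by
        ext
        · simpa using hu
        · simpa using hv⟩)
  intro x y
  obtain ⟨m, z, hz⟩ := key (x, y)
  refine ⟨m, ⟨z.1, ?_⟩, ⟨z.2, ?_⟩⟩
  · simpa using congrArg Prod.fst hz
  · simpa using congrArg Prod.snd hz

end Main

section Mem

variable {HL HM : Type*} [AddCommGroup HL] [AddCommGroup HM]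

/-- **`hDual`, membership form**: the same for submodules `PL ≤ HL`, `PM ≤ HM` (think
`Par(N, ℤ) ≤ Hom(Γ₀(N), ℤ)`), every hypothesis only on the submodules.  With `HL = Hm N`,
`PL = Par N`, `res1 = opLin (resSys N q)`, `w = opLin d.alSys`, `tr1 = opLin (trSys N q)`,
`S₀ = TLin N ℓ₀ _`, `e = ℓ₀ + 1` the hypothesis `hIhara` and the conclusion are literally `hIhara`
and `hDual` of `Assembly.exists_new_vector`. -/
theorem hDual_of_pairings_mem (PL : Submodule ℤ HL) (PM : Submodule ℤ HM) [Module.Finite ℤ PL]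
    {p : ℕ} (hp : p.Prime)
    (BL : HL → HL → ℤ) (BM : HM → HM → ℤ)
    (hBLl : ∀ x ∈ PL, ∀ x' ∈ PL, ∀ y ∈ PL, BL (x + x') y = BL x y + BL x' y)
    (hBLr : ∀ x ∈ PL, ∀ y ∈ PL, ∀ y' ∈ PL, BL x (y + y') = BL x y + BL x y')
    (hBMl : ∀ a ∈ PM, ∀ a' ∈ PM, ∀ b ∈ PM, BM (a + a') b = BM a b + BM a' b)
    (hBMr : ∀ a ∈ PM, ∀ b ∈ PM, ∀ b' ∈ PM, BM a (b + b') = BM a b + BM a b')
    (uniL : ∀ x ∈ PL, (∀ y ∈ PL, (p : ℤ) ∣ BL x y) → ∃ x' ∈ PL, x = (p : ℤ) • x')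
    (uniM : ∀ m ∈ PM, (∀ n ∈ PM, (p : ℤ) ∣ BM m n) → ∃ m' ∈ PM, m = (p : ℤ) • m')
    (res1 : HL →ₗ[ℤ] HM) (hres1 : ∀ x ∈ PL, res1 x ∈ PM)
    (tr1 : HM →ₗ[ℤ] HL) (htr1 : ∀ m ∈ PM, tr1 m ∈ PL)
    (w : HM →ₗ[ℤ] HM) (hw : ∀ m ∈ PM, w m ∈ PM)
    (hww : ∀ m ∈ PM, w (w m) = m)
    (adj : ∀ x ∈ PL, ∀ m ∈ PM, BM (res1 x) m = BL x (tr1 m))
    (iso : ∀ a ∈ PM, ∀ b ∈ PM, BM (w a) (w b) = BM a b)
    (S₀ : HL →ₗ[ℤ] HL) (hS₀ : ∀ x ∈ PL, S₀ x ∈ PL) (e : ℤ)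
    (hS : ∀ x ∈ PL, ∀ y ∈ PL, BL (S₀ x) y = BL x (S₀ y))
    (hIhara : ∀ x y : HL, x ∈ PL → y ∈ PL → (∃ m ∈ PM, res1 x + w (res1 y) = (p : ℤ) • m) →
      (∃ u ∈ PL, S₀ x - e • x = (p : ℤ) • u) ∧ (∃ u ∈ PL, S₀ y - e • y = (p : ℤ) • u)) :
    ∀ x y : HL, x ∈ PL → y ∈ PL → ∃ m ∈ PM,
      (∃ u ∈ PL, S₀ x - e • x - tr1 m = (p : ℤ) • u) ∧
      (∃ u ∈ PL, S₀ y - e • y - tr1 (w m) = (p : ℤ) • u) := by
  have key := hDual_of_pairings (L := PL) (M := PM) hp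
    (fun x y => BL x.1 y.1) (fun a b => BM a.1 b.1)
    (fun x x' y => hBLl x.1 x.2 x'.1 x'.2 y.1 y.2)
    (fun x y y' => hBLr x.1 x.2 y.1 y.2 y'.1 y'.2)
    (fun a a' b => hBMl a.1 a.2 a'.1 a'.2 b.1 b.2)
    (fun a b b' => hBMr a.1 a.2 b.1 b.2 b'.1 b'.2)
    (fun x h => by
      obtain ⟨x', hx', hxx'⟩ := uniL x.1 x.2 (fun y hy => h ⟨y, hy⟩)
      exact ⟨⟨x', hx'⟩, Subtype.ext hxx'⟩)
    (fun m h => by
      obtain ⟨m', hm', hmm'⟩ := uniM m.1 m.2 (fun n hn => h ⟨n, hn⟩)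
      exact ⟨⟨m', hm'⟩, Subtype.ext hmm'⟩)
    (res1.restrict hres1) (tr1.restrict htr1) (w.restrict hw)
    (fun m => Subtype.ext (hww m.1 m.2))
    (fun x m => adj x.1 x.2 m.1 m.2)
    (fun a b => iso a.1 a.2 b.1 b.2)
    (S₀.restrict hS₀) e
    (fun x y => hS x.1 x.2 y.1 y.2)
    (by
      rintro x y ⟨m, hm⟩
      obtain ⟨⟨u, hu, hxu⟩, ⟨v, hv, hyv⟩⟩ := hIhara x.1 y.1 x.2 y.2
        ⟨m.1, m.2, by simpa using congrArg Subtype.val hm⟩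
      exact ⟨⟨⟨u, hu⟩, Subtype.ext (by simpa using hxu)⟩, ⟨⟨v, hv⟩, Subtype.ext (by simpa using hyv)⟩⟩)
  intro x y hx hy
  obtain ⟨m, ⟨u, hu⟩, ⟨v, hv⟩⟩ := key ⟨x, hx⟩ ⟨y, hy⟩
  refine ⟨m.1, m.2, ⟨u.1, u.2, ?_⟩, ⟨v.1, v.2, ?_⟩⟩
  · simpa using congrArg Subtype.val hu
  · simpa using congrArg Subtype.val hv

/-- Self-adjointness of `S₀ = tr1' ∘ w' ∘ res1'` on a submodule, membership form. -/
theorem selfAdjoint_of_factor_mem {HM' : Type*} [AddCommGroup HM']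
    (PL : Submodule ℤ HL) (PM' : Submodule ℤ HM')
    (BL : HL → HL → ℤ) (BM' : HM' → HM' → ℤ)
    (res1' : HL → HM') (hres1 : ∀ x ∈ PL, res1' x ∈ PM')
    (tr1' : HM' → HL) (w' : HM' → HM') (hw : ∀ m ∈ PM', w' m ∈ PM')
    (hww : ∀ m ∈ PM', w' (w' m) = m)
    (adj : ∀ x ∈ PL, ∀ m ∈ PM', BM' (res1' x) m = BL x (tr1' m))
    (adjFlip : ∀ m ∈ PM', ∀ y ∈ PL, BL (tr1' m) y = BM' m (res1' y))
    (iso : ∀ a ∈ PM', ∀ b ∈ PM', BM' (w' a) (w' b) = BM' a b)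
    (S₀ : HL → HL) (hS₀ : ∀ x ∈ PL, S₀ x = tr1' (w' (res1' x))) :
    ∀ x ∈ PL, ∀ y ∈ PL, BL (S₀ x) y = BL x (S₀ y) := by
  intro x hx y hy
  rw [hS₀ x hx, hS₀ y hy, adjFlip _ (hw _ (hres1 x hx)) y hy,
    ← iso _ (hw _ (hres1 x hx)) _ (hres1 y hy), hww _ (hres1 x hx),
    adj x hx _ (hw _ (hres1 y hy))]

/-- (ADJ) in the other variable order from skew-symmetry, membership form. -/
theorem adjFlip_of_skew_mem {HM' : Type*} [AddCommGroup HM']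
    (PL : Submodule ℤ HL) (PM' : Submodule ℤ HM')
    (BL : HL → HL → ℤ) (BM' : HM' → HM' → ℤ)
    (hskL : ∀ x ∈ PL, ∀ y ∈ PL, BL x y = - BL y x)
    (hskM : ∀ a ∈ PM', ∀ b ∈ PM', BM' a b = - BM' b a)
    (res1' : HL → HM') (hres1 : ∀ x ∈ PL, res1' x ∈ PM')
    (tr1' : HM' → HL) (htr1 : ∀ m ∈ PM', tr1' m ∈ PL)
    (adj : ∀ x ∈ PL, ∀ m ∈ PM', BM' (res1' x) m = BL x (tr1' m)) :
    ∀ m ∈ PM', ∀ y ∈ PL, BL (tr1' m) y = BM' m (res1' y) := by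
  intro m hm y hy
  rw [hskL _ (htr1 m hm) y hy, ← adj y hy m hm, ← hskM m hm _ (hres1 y hy)]

end Mem

end Fermat.Agent.S41.R1.DualIharaInst
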