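/-
S41 volunteer leaf (R1-cmp), part 1: the COMPARISON between integral parabolic cohomology and
cusp forms.

For a level `M`, `P_M := parabolicHoms ℤ (Gamma0 M) ℤ` (the frozen Prelude object, `= H¹(X₀(M), ℤ)`)
embeds into `S₂(Γ₀(M)) × S₂(Γ₀(M))` through the inverse of the Eichler–Shimura isomorphism
`periodHomPair M` (S21.result).  The embedding `iota` is additive, injective and Hecke-equivariant:
the coset-formula operators `(cosetT M ℓ _).heckeHom`, `(cosetU M ℓ _).heckeHom` of S16/HeckeHom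
correspond to `T_ℓ × T_ℓ`, `U_ℓ × U_ℓ` (S16/PeriodHeckePair).  In particular the coset-formula
operators preserve `P_M`.
-/
import Mathlib
import Fermat.Agent.S21
import Fermat.Agent.S16.PeriodHeckePair

set_option autoImplicit false

open CongruenceSubgroup
open scoped MatrixGroups

noncomputable section

namespace Fermat.Agent.S41.R1.Comparison

open ModularCurve ModularCurve.Period Fermat.Agent.S16.HeckeHom Fermat.Agent.S16.PeriodHeckePair

variable (M : ℕ) [NeZero M]

/-- Base change `ℤ → ℂ` on homomorphisms. -/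
def toC : (Additive (Gamma0 M) →+ ℤ) →+ (Additive (Gamma0 M) →+ ℂ) where
  toFun x := (Int.castAddHom ℂ).comp x
  map_zero' := AddMonoidHom.ext fun _ => by simp
  map_add' x y := AddMonoidHom.ext fun _ => by simp

theorem toC_apply (x : Additive (Gamma0 M) →+ ℤ) (γ : Additive (Gamma0 M)) :
    toC M x γ = ((x γ : ℤ) : ℂ) := rfl

theorem toC_injective : Function.Injective (toC M) := by
  intro x y h
  refine AddMonoidHom.ext fun γ => ?_
  have := DFunLike.congr_fun h γ
  rw [toC_apply, toC_apply] at this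
  exact_mod_cast this

theorem toC_mem_parabolicHoms_iff (x : Additive (Gamma0 M) →+ ℤ) :
    toC M x ∈ parabolicHoms ℂ (Gamma0 M) ℂ ↔ x ∈ parabolicHoms ℤ (Gamma0 M) ℤ := by
  rw [mem_parabolicHoms_iff, mem_parabolicHoms_iff]
  constructor
  · intro h γ hγ
    have := h γ hγ
    rw [toC_apply] at this
    exact_mod_cast this
  · intro h γ hγ
    rw [toC_apply, h γ hγ, Int.cast_zero]

theorem heckeHom_toC {I : Type} [Fintype I] [DecidableEq I] (C : CosetSystem (Gamma0 M) I)
    (x : Additive (Gamma0 M) →+ ℤ) : C.heckeHom (toC M x) = toC M (C.heckeHom x) :=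
  CosetSystem.heckeHom_comp C (Int.castAddHom ℂ) x

/-- The Eichler–Shimura isomorphism of S21 as a linear equivalence onto `parabolicHoms ℂ`. -/
def pairEquiv :
    (CuspForm (Gamma0 M) 2 × CuspForm (Gamma0 M) 2) ≃ₗ[ℂ] parabolicHoms ℂ (Gamma0 M) ℂ :=
  (LinearEquiv.ofInjective (periodHomPair M) (Fermat.Agent.S21.result M).1).trans
    (LinearEquiv.ofEq _ _ (Fermat.Agent.S21.result M).2)

theorem pairEquiv_apply (v : CuspForm (Gamma0 M) 2 × CuspForm (Gamma0 M) 2) :
    ((pairEquiv M v : parabolicHoms ℂ (Gamma0 M) ℂ) : Additive (Gamma0 M) →+ ℂ)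
      = periodHomPair M v := rfl

theorem periodHomPair_injective : Function.Injective (periodHomPair M) :=
  (Fermat.Agent.S21.result M).1

theorem periodHomPair_mem (v : CuspForm (Gamma0 M) 2 × CuspForm (Gamma0 M) 2) :
    periodHomPair M v ∈ parabolicHoms ℂ (Gamma0 M) ℂ := by
  rw [← (Fermat.Agent.S21.result M).2]
  exact LinearMap.mem_range_self _ v

/-- `iota`: the preimage under Eichler–Shimura of an integral parabolic class. -/
def iota : parabolicHoms ℤ (Gamma0 M) ℤ →+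
    (CuspForm (Gamma0 M) 2 × CuspForm (Gamma0 M) 2) where
  toFun x := (pairEquiv M).symm ⟨toC M x.1, (toC_mem_parabolicHoms_iff M x.1).2 x.2⟩
  map_zero' := by
    have h : (⟨toC M (0 : parabolicHoms ℤ (Gamma0 M) ℤ).1,
        (toC_mem_parabolicHoms_iff M _).2 (0 : parabolicHoms ℤ (Gamma0 M) ℤ).2⟩ :
        parabolicHoms ℂ (Gamma0 M) ℂ) = 0 := by
      apply Subtype.ext
      show toC M ((0 : parabolicHoms ℤ (Gamma0 M) ℤ) : Additive (Gamma0 M) →+ ℤ) = 0
      rw [ZeroMemClass.coe_zero, map_zero]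
    rw [h, map_zero]
  map_add' x y := by
    have h : (⟨toC M (x + y).1, (toC_mem_parabolicHoms_iff M _).2 (x + y).2⟩ :
        parabolicHoms ℂ (Gamma0 M) ℂ) =
        ⟨toC M x.1, (toC_mem_parabolicHoms_iff M x.1).2 x.2⟩ +
          ⟨toC M y.1, (toC_mem_parabolicHoms_iff M y.1).2 y.2⟩ := by
      apply Subtype.ext
      show toC M ((x + y : parabolicHoms ℤ (Gamma0 M) ℤ) : Additive (Gamma0 M) →+ ℤ) =
        toC M x.1 + toC M y.1
      rw [AddMemClass.coe_add, map_add]
    rw [h, map_add]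

theorem periodHomPair_iota (x : parabolicHoms ℤ (Gamma0 M) ℤ) :
    periodHomPair M (iota M x) = toC M x.1 := by
  have h := (pairEquiv M).apply_symm_apply
    ⟨toC M x.1, (toC_mem_parabolicHoms_iff M x.1).2 x.2⟩
  have h2 := congrArg Subtype.val h
  rw [pairEquiv_apply] at h2
  exact h2

/-- Characterisation of `iota`. -/
theorem iota_eq_iff (x : parabolicHoms ℤ (Gamma0 M) ℤ)
    (v : CuspForm (Gamma0 M) 2 × CuspForm (Gamma0 M) 2) :
    iota M x = v ↔ periodHomPair M v = toC M x.1 := by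
  constructor
  · rintro rfl; exact periodHomPair_iota M x
  · intro h
    apply periodHomPair_injective M
    rw [periodHomPair_iota, h]

theorem iota_injective : Function.Injective (iota M) := by
  intro x y h
  apply Subtype.ext
  apply toC_injective M
  rw [← periodHomPair_iota, ← periodHomPair_iota, h]

theorem iota_zsmul (n : ℤ) (x : parabolicHoms ℤ (Gamma0 M) ℤ) :
    iota M (n • x) = n • iota M x := map_zsmul (iota M) n x

/-! ### Hecke equivariance -/

/-- Coset-formula Hecke operators preserve integral parabolic classes (via Eichler–Shimura), and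
`iota` intertwines them with the Hecke operators on cusp forms: abstract version. -/
theorem heckeHom_mem_and_iota {I : Type} [Fintype I] [DecidableEq I]
    (C : CosetSystem (Gamma0 M) I)
    (Top : CuspForm (Gamma0 M) 2 → CuspForm (Gamma0 M) 2)
    (hC : ∀ f g : CuspForm (Gamma0 M) 2,
      periodHomPair M (Top f, Top g) = C.heckeHom (periodHomPair M (f, g)))
    (x : parabolicHoms ℤ (Gamma0 M) ℤ) :
    ∃ h : C.heckeHom x.1 ∈ parabolicHoms ℤ (Gamma0 M) ℤ,
      iota M ⟨C.heckeHom x.1, h⟩ = (Top (iota M x).1, Top (iota M x).2) := by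
  have h1 : periodHomPair M (Top (iota M x).1, Top (iota M x).2) = toC M (C.heckeHom x.1) := by
    rw [hC, Prod.mk.eta, periodHomPair_iota, heckeHom_toC]
  have hmem : C.heckeHom x.1 ∈ parabolicHoms ℤ (Gamma0 M) ℤ := by
    rw [← toC_mem_parabolicHoms_iff, ← h1]
    exact periodHomPair_mem M _
  exact ⟨hmem, (iota_eq_iff M _ _).2 h1⟩

section T

variable (ℓ : ℕ) [hℓ : Fact ℓ.Prime] (hℓM : ¬ ℓ ∣ M)

theorem heckeT_mem (x : parabolicHoms ℤ (Gamma0 M) ℤ) :
    (cosetT M ℓ hℓM).heckeHom x.1 ∈ parabolicHoms ℤ (Gamma0 M) ℤ :=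
  (heckeHom_mem_and_iota M (cosetT M ℓ hℓM) (CuspForm.heckeTLin 2 hℓ.out hℓM)
    (fun f g => periodHomPair_heckeT M ℓ hℓM f g) x).1

/-- The coset-formula `T_ℓ` on integral parabolic classes. -/
def heckeT : parabolicHoms ℤ (Gamma0 M) ℤ →+ parabolicHoms ℤ (Gamma0 M) ℤ where
  toFun x := ⟨(cosetT M ℓ hℓM).heckeHom x.1, heckeT_mem M ℓ hℓM x⟩
  map_zero' := by
    apply Subtype.ext
    show (cosetT M ℓ hℓM).heckeHom
      ((0 : parabolicHoms ℤ (Gamma0 M) ℤ) : Additive (Gamma0 M) →+ ℤ) = 0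
    rw [ZeroMemClass.coe_zero, CosetSystem.heckeHom_zero]
  map_add' x y := by
    apply Subtype.ext
    show (cosetT M ℓ hℓM).heckeHom
      ((x + y : parabolicHoms ℤ (Gamma0 M) ℤ) : Additive (Gamma0 M) →+ ℤ) = _
    rw [AddMemClass.coe_add, CosetSystem.heckeHom_add]
    rfl

theorem heckeT_coe (x : parabolicHoms ℤ (Gamma0 M) ℤ) :
    ((heckeT M ℓ hℓM x : parabolicHoms ℤ (Gamma0 M) ℤ) : Additive (Gamma0 M) →+ ℤ)
      = (cosetT M ℓ hℓM).heckeHom x.1 := rfl

theorem iota_heckeT (x : parabolicHoms ℤ (Gamma0 M) ℤ) :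
    iota M (heckeT M ℓ hℓM x) =
      (CuspForm.heckeTLin 2 hℓ.out hℓM (iota M x).1,
        CuspForm.heckeTLin 2 hℓ.out hℓM (iota M x).2) :=
  (heckeHom_mem_and_iota M (cosetT M ℓ hℓM) (CuspForm.heckeTLin 2 hℓ.out hℓM)
    (fun f g => periodHomPair_heckeT M ℓ hℓM f g) x).2

end T

section U

variable (ℓ : ℕ) [hℓ : Fact ℓ.Prime] (hℓM : ℓ ∣ M)

theorem heckeU_mem (x : parabolicHoms ℤ (Gamma0 M) ℤ) :
    (cosetU M ℓ hℓM).heckeHom x.1 ∈ parabolicHoms ℤ (Gamma0 M) ℤ :=
  (heckeHom_mem_and_iota M (cosetU M ℓ hℓM) (CuspForm.heckeULin 2 hℓM)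
    (fun f g => periodHomPair_heckeU M ℓ hℓM f g) x).1

/-- The coset-formula `U_ℓ` on integral parabolic classes. -/
def heckeU : parabolicHoms ℤ (Gamma0 M) ℤ →+ parabolicHoms ℤ (Gamma0 M) ℤ where
  toFun x := ⟨(cosetU M ℓ hℓM).heckeHom x.1, heckeU_mem M ℓ hℓM x⟩
  map_zero' := by
    apply Subtype.ext
    show (cosetU M ℓ hℓM).heckeHom
      ((0 : parabolicHoms ℤ (Gamma0 M) ℤ) : Additive (Gamma0 M) →+ ℤ) = 0
    rw [ZeroMemClass.coe_zero, CosetSystem.heckeHom_zero]
  map_add' x y := by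
    apply Subtype.ext
    show (cosetU M ℓ hℓM).heckeHom
      ((x + y : parabolicHoms ℤ (Gamma0 M) ℤ) : Additive (Gamma0 M) →+ ℤ) = _
    rw [AddMemClass.coe_add, CosetSystem.heckeHom_add]
    rfl

theorem heckeU_coe (x : parabolicHoms ℤ (Gamma0 M) ℤ) :
    ((heckeU M ℓ hℓM x : parabolicHoms ℤ (Gamma0 M) ℤ) : Additive (Gamma0 M) →+ ℤ)
      = (cosetU M ℓ hℓM).heckeHom x.1 := rfl

theorem iota_heckeU (x : parabolicHoms ℤ (Gamma0 M) ℤ) :
    iota M (heckeU M ℓ hℓM x) =
      (CuspForm.heckeULin 2 hℓM (iota M x).1, CuspForm.heckeULin 2 hℓM (iota M x).2) :=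
  (heckeHom_mem_and_iota M (cosetU M ℓ hℓM) (CuspForm.heckeULin 2 hℓM)
    (fun f g => periodHomPair_heckeU M ℓ hℓM f g) x).2

end U

end Fermat.Agent.S41.R1.Comparison
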