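/-
S41 volunteer leaf (R1-cmp), part 3a (Mathlib only): RATIONAL STRUCTURE of `Hom(G, ℂ)` for a
finitely generated group `G`.

Every homomorphism `φ : G → ℂ` which vanishes on a set `P ⊆ G` is a `ℂ`-linear combination of
`ℤ`-valued homomorphisms vanishing on `P`.  (Take a `ℚ`-basis of the `ℚ`-span of the values of
`φ` on a finite generating set, and clear denominators.)
-/
import Mathlib

set_option autoImplicit false

noncomputable section

namespace Fermat.Agent.S41.R1.RationalStructure

variable {G : Type*} [Group G]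

/-- Base change `ℤ → ℂ` on homomorphisms. -/
def castC (x : Additive G →+ ℤ) : Additive G →+ ℂ := (Int.castAddHom ℂ).comp x

theorem castC_apply (x : Additive G →+ ℤ) (g : Additive G) : castC x g = ((x g : ℤ) : ℂ) := rfl

/-- The set of base changes of integral homomorphisms vanishing on `P`. -/
def intHoms (P : Set G) : Set (Additive G →+ ℂ) :=
  {ψ | ∃ x : Additive G →+ ℤ, (∀ γ ∈ P, x (Additive.ofMul γ) = 0) ∧ ψ = castC x}

/-- A property of elements of a group generated by `S` which holds on `S`, at `1`, and is stable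
under products and inverses holds everywhere. -/
theorem induction_of_closure_eq_top {S : Set G} (hS : Subgroup.closure S = ⊤)
    (p : G → Prop) (h1 : p 1) (hS' : ∀ s ∈ S, p s) (hmul : ∀ a b, p a → p b → p (a * b))
    (hinv : ∀ a, p a → p a⁻¹) (g : G) : p g := by
  have hg : g ∈ Subgroup.closure S := by rw [hS]; trivial
  induction hg using Subgroup.closure_induction with
  | mem x hx => exact hS' x hx
  | one => exact h1
  | mul x y _ _ hx hy => exact hmul x y hx hy
  | inv x _ hx => exact hinv x hx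

/-- Clearing denominators of a `ℚ`-valued homomorphism on a finitely generated group. -/
theorem exists_int_multiple {S : Finset G} (hS : Subgroup.closure (S : Set G) = ⊤)
    (ψ : Additive G →+ ℚ) :
    ∃ (D : ℤ) (x : Additive G →+ ℤ), D ≠ 0 ∧ ∀ g : Additive G, ((x g : ℤ) : ℚ) = D * ψ g := by
  classical
  let D : ℤ := ∏ s ∈ S, ((ψ (Additive.ofMul s)).den : ℤ)
  have hD : D ≠ 0 := by
    apply Finset.prod_ne_zero_iff.2
    intro s _
    exact_mod_cast (ψ (Additive.ofMul s)).den_ne_zero
  have hSint : ∀ s ∈ S, ∃ n : ℤ, (n : ℚ) = D * ψ (Additive.ofMul s) := by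
    intro s hs
    refine ⟨(∏ t ∈ S.erase s, ((ψ (Additive.ofMul t)).den : ℤ)) * (ψ (Additive.ofMul s)).num, ?_⟩
    have h1 : D = (∏ t ∈ S.erase s, ((ψ (Additive.ofMul t)).den : ℤ)) *
        ((ψ (Additive.ofMul s)).den : ℤ) := by
      show ∏ t ∈ S, ((ψ (Additive.ofMul t)).den : ℤ) = _
      rw [← Finset.prod_erase_mul S _ hs]
    rw [h1]
    push_cast
    have h2 : ((ψ (Additive.ofMul s)).den : ℚ) * ψ (Additive.ofMul s) =
        ((ψ (Additive.ofMul s)).num : ℚ) := by
      rw [mul_comm]; exact Rat.mul_den_eq_num _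
    rw [mul_assoc, h2]
  have hall : ∀ g : G, ∃ n : ℤ, (n : ℚ) = D * ψ (Additive.ofMul g) := by
    refine induction_of_closure_eq_top hS _ ⟨0, ?_⟩ hSint ?_ ?_
    · rw [ofMul_one, map_zero, mul_zero, Int.cast_zero]
    · rintro a b ⟨m, hm⟩ ⟨n, hn⟩
      exact ⟨m + n, by rw [ofMul_mul, map_add, mul_add, ← hm, ← hn, Int.cast_add]⟩
    · rintro a ⟨m, hm⟩
      exact ⟨-m, by rw [ofMul_inv, map_neg, mul_neg, ← hm, Int.cast_neg]⟩
  choose n hn using hall
  refine ⟨D, AddMonoidHom.mk' (fun g => n (Additive.toMul g)) ?_, hD, ?_⟩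
  · intro a b
    apply Int.cast_injective (α := ℚ)
    rw [Int.cast_add, hn, hn, hn, ← mul_add, ← map_add]
    rfl
  · intro g
    exact hn (Additive.toMul g)

/-- **Rational structure.**  A `ℂ`-valued homomorphism on a finitely generated group which
vanishes on `P` is in the `ℂ`-span of the integral homomorphisms vanishing on `P`. -/
theorem mem_span_intHoms (hG : Group.FG G) (P : Set G) (φ : Additive G →+ ℂ)
    (hφ : ∀ γ ∈ P, φ (Additive.ofMul γ) = 0) :
    φ ∈ Submodule.span ℂ (intHoms P) := by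
  classical
  obtain ⟨S, hS⟩ := Group.fg_def.1 hG
  -- the `ℚ`-span of the values on generators
  let U : Submodule ℚ ℂ := Submodule.span ℚ ((fun s : G => φ (Additive.ofMul s)) '' (S : Set G))
  haveI : FiniteDimensional ℚ U :=
    FiniteDimensional.span_of_finite ℚ ((S : Set G).toFinite.image _)
  have hU : ∀ g : G, φ (Additive.ofMul g) ∈ U := by
    refine induction_of_closure_eq_top hS _ ?_ ?_ ?_ ?_
    · rw [ofMul_one, map_zero]; exact U.zero_mem
    · intro s hs
      exact Submodule.subset_span ⟨s, hs, rfl⟩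
    · intro a b ha hb
      rw [ofMul_mul, map_add]; exact U.add_mem ha hb
    · intro a ha
      rw [ofMul_inv, map_neg]; exact U.neg_mem ha
  let b := Module.finBasis ℚ U
  -- the coordinate homomorphisms
  let ψ : Fin (Module.finrank ℚ U) → (Additive G →+ ℚ) := fun j =>
    AddMonoidHom.mk' (fun g => b.repr ⟨φ g, hU (Additive.toMul g)⟩ j) (by
      intro a c
      have h : (⟨φ (a + c), hU (Additive.toMul (a + c))⟩ : U) =
          ⟨φ a, hU (Additive.toMul a)⟩ + ⟨φ c, hU (Additive.toMul c)⟩ := by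
        apply Subtype.ext
        show φ (a + c) = φ a + φ c
        exact map_add φ a c
      rw [h, map_add, Finsupp.add_apply])
  have hψ : ∀ (j : Fin (Module.finrank ℚ U)) (g : Additive G),
      ψ j g = b.repr ⟨φ g, hU (Additive.toMul g)⟩ j := fun _ _ => rfl
  have hsum : ∀ g : Additive G, φ g = ∑ j, ((ψ j g : ℚ) : ℂ) * ((b j : U) : ℂ) := by
    intro g
    have h := b.sum_repr ⟨φ g, hU (Additive.toMul g)⟩
    have h2 := congrArg (fun u : U => (u : ℂ)) h
    simp only [Submodule.coe_sum, Submodule.coe_smul] at h2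
    rw [← h2]
    apply Finset.sum_congr rfl
    intro j _
    rw [hψ, Rat.smul_def]
  have hvan : ∀ (j : Fin (Module.finrank ℚ U)), ∀ γ ∈ P, ψ j (Additive.ofMul γ) = 0 := by
    intro j γ hγ
    rw [hψ]
    have h0 : (⟨φ (Additive.ofMul γ), hU (Additive.toMul (Additive.ofMul γ))⟩ : U) = 0 := by
      apply Subtype.ext
      exact hφ γ hγ
    rw [h0, map_zero, Finsupp.zero_apply]
  -- clear denominators
  choose D x hD hx using fun j => exists_int_multiple hS (ψ j)
  have hxvan : ∀ (j : Fin (Module.finrank ℚ U)), ∀ γ ∈ P, x j (Additive.ofMul γ) = 0 := by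
    intro j γ hγ
    apply Int.cast_injective (α := ℚ)
    rw [hx, hvan j γ hγ, mul_zero, Int.cast_zero]
  have hφeq : φ = ∑ j, ((((b j : U) : ℂ)) / ((D j : ℤ) : ℂ)) • castC (x j) := by
    refine AddMonoidHom.ext fun g => ?_
    rw [hsum g, AddMonoidHom.finset_sum_apply]
    apply Finset.sum_congr rfl
    intro j _
    rw [AddMonoidHom.smul_apply, castC_apply, smul_eq_mul]
    have h1 : ((x j g : ℤ) : ℂ) = ((D j : ℤ) : ℂ) * ((ψ j g : ℚ) : ℂ) := by
      have := congrArg (fun q : ℚ => (q : ℂ)) (hx j g)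
      simp only [Rat.cast_intCast, Rat.cast_mul] at this
      exact this
    have hDj : ((D j : ℤ) : ℂ) ≠ 0 := by exact_mod_cast hD j
    rw [h1]
    field_simp
  rw [hφeq]
  refine Submodule.sum_mem _ fun j _ => Submodule.smul_mem _ _ (Submodule.subset_span ?_)
  exact ⟨x j, hxvan j, rfl⟩

end Fermat.Agent.S41.R1.RationalStructure
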