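/-
S41 volunteer leaf (R1-cmp), part 3b: the integral parabolic cohomology is a FULL lattice.

`iota M : parabolicHoms ℤ (Gamma0 M) ℤ →+ S₂(Γ₀(M)) × S₂(Γ₀(M))` (see `Comparison.lean`) has a
`ℂ`-spanning image.  Consequently a `ℂ`-linear endomorphism of `S₂ × S₂` which kills `iota x` for
all `x` is zero, and an element `t` of the Hecke algebra which kills (diagonally) all `iota x` is
zero: the lattice `iota (Par(M, ℤ))` is a FAITHFUL module over the Hecke algebra.
-/
import Mathlib
import Fermat.Agent.S41.R1.Comparison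
import Fermat.Agent.S41.R1.RationalStructure
import Fermat.Agent.S22.Gamma0FG
import Fermat.Prelude.Def_CuspForm_HeckeAlgebra

set_option autoImplicit false

open CongruenceSubgroup
open scoped MatrixGroups

noncomputable section

namespace Fermat.Agent.S41.R1.ComparisonSpan

open ModularCurve ModularCurve.Period Fermat.Agent.S41.R1.Comparison
open Fermat.Agent.S41.R1.RationalStructure

variable (M : ℕ) [NeZero M]

/-- The parabolic elements of `Γ₀(M)`. -/
def parSet : Set (Gamma0 M) :=
  {γ | ((γ : SL(2, ℤ)) : Matrix (Fin 2) (Fin 2) ℤ).trace ^ 2 = 4}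

/-- **Full lattice.** The image of `iota` spans `S₂ × S₂` over `ℂ`. -/
theorem span_range_iota : Submodule.span ℂ (Set.range (iota M)) = ⊤ := by
  rw [eq_top_iff]
  rintro v -
  have hφ := periodHomPair_mem M v
  rw [mem_parabolicHoms_iff] at hφ
  have hspan := mem_span_intHoms (Fermat.Agent.S22.gamma0_fg M) (parSet M) (periodHomPair M v)
    (fun γ hγ => hφ γ hγ)
  have hle : Submodule.span ℂ (intHoms (parSet M)) ≤
      (Submodule.span ℂ (Set.range (iota M))).map (periodHomPair M) := by
    rw [Submodule.span_le]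
    rintro ψ ⟨x, hx, rfl⟩
    have hx' : x ∈ parabolicHoms ℤ (Gamma0 M) ℤ := by
      rw [mem_parabolicHoms_iff]
      intro γ hγ
      exact hx γ hγ
    refine ⟨iota M ⟨x, hx'⟩, Submodule.subset_span ⟨_, rfl⟩, ?_⟩
    rw [periodHomPair_iota]
    rfl
  obtain ⟨w, hw, hwv⟩ := hle hspan
  have : w = v := periodHomPair_injective M hwv
  rwa [this] at hw

/-- A `ℂ`-linear map out of `S₂ × S₂` which kills the lattice is zero. -/
theorem linearMap_eq_zero_of_iota {V : Type*} [AddCommGroup V] [Module ℂ V]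
    (E : (CuspForm (Gamma0 M) 2 × CuspForm (Gamma0 M) 2) →ₗ[ℂ] V)
    (hE : ∀ x : parabolicHoms ℤ (Gamma0 M) ℤ, E (iota M x) = 0) : E = 0 := by
  apply LinearMap.ext_on (span_range_iota M)
  rintro _ ⟨x, rfl⟩
  rw [hE x, LinearMap.zero_apply]

/-- A `ℂ`-linear endomorphism `t` of `S₂` whose diagonal action kills the lattice is zero. -/
theorem end_eq_zero_of_iota (t : Module.End ℂ (CuspForm (Gamma0 M) 2))
    (ht : ∀ x : parabolicHoms ℤ (Gamma0 M) ℤ, (t (iota M x).1, t (iota M x).2) = 0) :
    t = 0 := by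
  have h := linearMap_eq_zero_of_iota M (LinearMap.prodMap t t) (fun x => by
    rw [LinearMap.prodMap_apply]; exact ht x)
  ext f
  have h2 := congrArg (fun E : (CuspForm (Gamma0 M) 2 × CuspForm (Gamma0 M) 2) →ₗ[ℂ]
    (CuspForm (Gamma0 M) 2 × CuspForm (Gamma0 M) 2) => (E (f, 0)).1) h
  simp only [LinearMap.prodMap_apply, LinearMap.zero_apply, Prod.fst_zero] at h2
  rw [h2, LinearMap.zero_apply]

/-- **Faithfulness.** An element of the Hecke algebra of level `M` whose diagonal action kills the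
lattice `iota (Par(M, ℤ))` is zero. -/
theorem heckeAlgebra_eq_zero_of_iota (S : Set ℕ) (t : CuspForm.heckeAlgebra M 2 S)
    (ht : ∀ x : parabolicHoms ℤ (Gamma0 M) ℤ,
      ((t : Module.End ℂ (CuspForm (Gamma0 M) 2)) (iota M x).1,
        (t : Module.End ℂ (CuspForm (Gamma0 M) 2)) (iota M x).2) = 0) : t = 0 :=
  Subtype.ext (end_eq_zero_of_iota M _ ht)

end Fermat.Agent.S41.R1.ComparisonSpan
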