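/-
S41 volunteer leaf (R1-cmp), part 4: the integral parabolic cohomology as a HECKE MODULE.

`lattice M S` is the image of `iota M : parabolicHoms ℤ (Gamma0 M) ℤ →+ S₂ × S₂` regarded as a
submodule of `S₂(Γ₀(M)) × S₂(Γ₀(M))` over the (commutative) Hecke algebra
`CuspForm.heckeAlgebra M 2 S` (diagonal action).  It is finitely generated and torsion-free over
`ℤ`, and FAITHFUL over the Hecke algebra.  The generators `T_ℓ`, `U_ℓ` of the Hecke algebra act
through the coset-formula operators `heckeT`, `heckeU` of `Comparison.lean`.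
-/
import Mathlib
import Fermat.Agent.S41.R1.ComparisonSpan

set_option autoImplicit false

open CongruenceSubgroup
open scoped MatrixGroups

noncomputable section

namespace Fermat.Agent.S41.R1.LatticeModule

open ModularCurve ModularCurve.Period Fermat.Agent.S41.R1.Comparison
open Fermat.Agent.S41.R1.ComparisonSpan

variable (M : ℕ) [NeZero M] (S : Set ℕ)

/-- The Hecke algebra acts diagonally on pairs of cusp forms. -/
theorem smul_pair_def (t : CuspForm.heckeAlgebra M 2 S)
    (v : CuspForm (Gamma0 M) 2 × CuspForm (Gamma0 M) 2) :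
    t • v = ((t : Module.End ℂ (CuspForm (Gamma0 M) 2)) v.1,
      (t : Module.End ℂ (CuspForm (Gamma0 M) 2)) v.2) := rfl

/-- The set of endomorphisms of `S₂` whose diagonal action preserves the lattice. -/
def stabSub : Subalgebra ℤ (Module.End ℂ (CuspForm (Gamma0 M) 2)) where
  carrier := {t | ∀ x : parabolicHoms ℤ (Gamma0 M) ℤ,
    ∃ y : parabolicHoms ℤ (Gamma0 M) ℤ, iota M y = (t (iota M x).1, t (iota M x).2)}
  mul_mem' := by
    intro a b ha hb x
    obtain ⟨y, hy⟩ := hb x
    obtain ⟨z, hz⟩ := ha y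
    refine ⟨z, ?_⟩
    rw [hz, hy]
    rfl
  one_mem' := fun x => ⟨x, rfl⟩
  add_mem' := by
    intro a b ha hb x
    obtain ⟨y, hy⟩ := ha x
    obtain ⟨z, hz⟩ := hb x
    refine ⟨y + z, ?_⟩
    rw [map_add, hy, hz]
    rfl
  zero_mem' := fun x => ⟨0, by rw [map_zero]; rfl⟩
  algebraMap_mem' := by
    intro n x
    refine ⟨n • x, ?_⟩
    rw [iota_zsmul]
    apply Prod.ext
    · show n • (iota M x).1 = (algebraMap ℤ (Module.End ℂ (CuspForm (Gamma0 M) 2)) n) (iota M x).1
      rw [Algebra.algebraMap_eq_smul_one, LinearMap.smul_apply, Module.End.one_apply]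
    · show n • (iota M x).2 = (algebraMap ℤ (Module.End ℂ (CuspForm (Gamma0 M) 2)) n) (iota M x).2
      rw [Algebra.algebraMap_eq_smul_one, LinearMap.smul_apply, Module.End.one_apply]

theorem heckeAlgebra_le_stabSub : CuspForm.heckeAlgebra M 2 S ≤ stabSub M := by
  apply Algebra.adjoin_le
  rintro T (⟨ℓ, hℓ, hℓM, -, rfl⟩ | ⟨q, hqM, hq, -, rfl⟩)
  · intro x
    have : Fact ℓ.Prime := ⟨hℓ⟩
    exact ⟨heckeT M ℓ hℓM x, iota_heckeT M ℓ hℓM x⟩
  · intro x
    have : Fact q.Prime := ⟨hq⟩
    exact ⟨heckeU M q hqM x, iota_heckeU M q hqM x⟩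

/-- The lattice `iota (Par(M, ℤ))` as a module over the Hecke algebra. -/
def lattice : Submodule (CuspForm.heckeAlgebra M 2 S)
    (CuspForm (Gamma0 M) 2 × CuspForm (Gamma0 M) 2) where
  carrier := Set.range (iota M)
  add_mem' := by
    rintro _ _ ⟨x, rfl⟩ ⟨y, rfl⟩
    exact ⟨x + y, map_add _ _ _⟩
  zero_mem' := ⟨0, map_zero _⟩
  smul_mem' := by
    rintro t _ ⟨x, rfl⟩
    obtain ⟨y, hy⟩ := heckeAlgebra_le_stabSub M S t.2 x
    exact ⟨y, hy⟩

/-! Shortcut instances: the generic search for `SMul (heckeAlgebra M 2 S) (lattice M S)` explores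
many dead ends (normed-algebra paths) and times out at the default heartbeat limit. -/

instance lattice_module : Module (CuspForm.heckeAlgebra M 2 S) (lattice M S) :=
  Submodule.module (lattice M S)

instance lattice_smul : SMul (CuspForm.heckeAlgebra M 2 S) (lattice M S) :=
  (lattice_module M S).toSMul

instance lattice_mulAction : MulAction (CuspForm.heckeAlgebra M 2 S) (lattice M S) :=
  (lattice_module M S).toMulAction

instance lattice_distribMulAction :
    DistribMulAction (CuspForm.heckeAlgebra M 2 S) (lattice M S) :=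
  (lattice_module M S).toDistribMulAction

theorem coe_smul_lattice (t : CuspForm.heckeAlgebra M 2 S) (v : lattice M S) :
    ((t • v : lattice M S) : CuspForm (Gamma0 M) 2 × CuspForm (Gamma0 M) 2) =
      ((t : Module.End ℂ (CuspForm (Gamma0 M) 2))
          (v : CuspForm (Gamma0 M) 2 × CuspForm (Gamma0 M) 2).1,
        (t : Module.End ℂ (CuspForm (Gamma0 M) 2))
          (v : CuspForm (Gamma0 M) 2 × CuspForm (Gamma0 M) 2).2) := rfl

theorem mem_lattice_iff (v : CuspForm (Gamma0 M) 2 × CuspForm (Gamma0 M) 2) :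
    v ∈ lattice M S ↔ ∃ x : parabolicHoms ℤ (Gamma0 M) ℤ, iota M x = v := Iff.rfl

/-- `iota` as an additive equivalence onto the lattice. -/
def iotaEquiv : parabolicHoms ℤ (Gamma0 M) ℤ ≃+ lattice M S :=
  AddEquiv.ofBijective
    (AddMonoidHom.mk' (fun x => (⟨iota M x, ⟨x, rfl⟩⟩ : lattice M S))
      (fun x y => Subtype.ext (map_add (iota M) x y)))
    ⟨fun _ _ h => iota_injective M (congrArg Subtype.val h), fun ⟨_, ⟨x, rfl⟩⟩ => ⟨x, rfl⟩⟩

@[simp] theorem coe_iotaEquiv (x : parabolicHoms ℤ (Gamma0 M) ℤ) :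
    ((iotaEquiv M S x : lattice M S) : CuspForm (Gamma0 M) 2 × CuspForm (Gamma0 M) 2)
      = iota M x := rfl

/-- **Faithfulness** (literal `H0`-shape): an element of the Hecke algebra killing the lattice is
zero. -/
theorem eq_zero_of_smul_lattice (r : CuspForm.heckeAlgebra M 2 S)
    (hr : ∀ x : lattice M S, r • x = 0) : r = 0 := by
  apply heckeAlgebra_eq_zero_of_iota M S r
  intro x
  have := congrArg Subtype.val (hr (iotaEquiv M S x))
  exact this

/-- The lattice is `ℤ`-torsion-free (literal shape). -/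
theorem lattice_torsionFree (n : ℤ) (x : lattice M S) (hn : n ≠ 0) (h : n • x = 0) : x = 0 := by
  apply Subtype.ext
  have h1 : n • (x : CuspForm (Gamma0 M) 2 × CuspForm (Gamma0 M) 2) = 0 := by
    have := congrArg Subtype.val h
    simpa using this
  rw [← Int.cast_smul_eq_zsmul ℂ] at h1
  rcases smul_eq_zero.1 h1 with h2 | h2
  · exact absurd (Int.cast_eq_zero.1 h2) hn
  · exact h2

/-! ### Finite generation over `ℤ` -/

/-- `Hom(G, ℤ)` is a finitely generated `ℤ`-module for a finitely generated group `G`, and so is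
every subgroup of it. -/
theorem finite_of_fg {G : Type*} [Group G] (hG : Group.FG G)
    (P : AddSubgroup (Additive G →+ ℤ)) : Module.Finite ℤ P := by
  obtain ⟨T, hT⟩ := Group.fg_iff.1 hG
  obtain ⟨T, rfl⟩ := hT.2.exists_finset_coe
  have hT' := hT.1
  let ev : P →ₗ[ℤ] (T → ℤ) :=
    { toFun := fun x s => (x : Additive G →+ ℤ) (Additive.ofMul (s : G))
      map_add' := fun x y => by ext s; rfl
      map_smul' := fun n x => by ext s; rfl }
  have hinj : Function.Injective ev := by
    intro x y hxy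
    apply Subtype.ext
    refine AddMonoidHom.ext fun g => ?_
    have key : ∀ g : G, (x : Additive G →+ ℤ) (Additive.ofMul g) =
        (y : Additive G →+ ℤ) (Additive.ofMul g) := by
      refine Fermat.Agent.S41.R1.RationalStructure.induction_of_closure_eq_top hT' _ ?_ ?_ ?_ ?_
      · rw [ofMul_one, map_zero, map_zero]
      · intro s hs
        exact congrFun hxy ⟨s, hs⟩
      · intro a b ha hb
        rw [ofMul_mul, map_add, map_add, ha, hb]
      · intro a ha
        rw [ofMul_inv, map_neg, map_neg, ha]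
    exact key (Additive.toMul g)
  exact Module.Finite.of_injective ev hinj

instance par_finite : Module.Finite ℤ (parabolicHoms ℤ (Gamma0 M) ℤ) :=
  finite_of_fg (Fermat.Agent.S22.gamma0_fg M) (parabolicHoms ℤ (Gamma0 M) ℤ).toAddSubgroup

instance lattice_finite : Module.Finite ℤ (lattice M S) :=
  Module.Finite.equiv (iotaEquiv M S).toIntLinearEquiv

/-! ### The generators -/

theorem T_smul_iota {ℓ : ℕ} [hℓ : Fact ℓ.Prime] (hℓM : ¬ ℓ ∣ M) (hℓS : ℓ ∉ S)
    (x : parabolicHoms ℤ (Gamma0 M) ℤ) :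
    (CuspForm.heckeAlgebra.T hℓ.out hℓM hℓS : CuspForm.heckeAlgebra M 2 S) • iotaEquiv M S x =
      iotaEquiv M S (heckeT M ℓ hℓM x) :=
  Subtype.ext (iota_heckeT M ℓ hℓM x).symm

theorem U_smul_iota {ℓ : ℕ} [hℓ : Fact ℓ.Prime] (hℓM : ℓ ∣ M) (hℓS : ℓ ∉ S)
    (x : parabolicHoms ℤ (Gamma0 M) ℤ) :
    (CuspForm.heckeAlgebra.U hℓ.out hℓM hℓS : CuspForm.heckeAlgebra M 2 S) • iotaEquiv M S x =
      iotaEquiv M S (heckeU M ℓ hℓM x) :=
  Subtype.ext (iota_heckeU M ℓ hℓM x).symm

end Fermat.Agent.S41.R1.LatticeModule
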